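import Mathlib

set_option autoImplicit false

namespace Fermat.Agent.S57x

open MvPowerSeries

variable {σ : Type} {A : Type} [CommRing A]

/-- If all coefficients of `f` at exponents vanishing on the finite set `s` are zero,
then `f` lies in the ideal generated by the variables `X i`, `i ∈ s`. -/
theorem mem_span_X_of_coeff_eq_zero [DecidableEq σ] (s : Finset σ) (f : MvPowerSeries σ A)
    (hf : ∀ m : σ →₀ ℕ, (∀ i ∈ s, m i = 0) → coeff m f = 0) :
    f ∈ Ideal.span ((fun i => (X i : MvPowerSeries σ A)) '' (s : Set σ)) := by
  classical
  induction s using Finset.induction_on generalizing f with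
  | empty =>
    have : f = 0 := by
      ext m
      simpa using hf m (by simp)
    rw [this]
    exact Submodule.zero_mem _
  | insert a t hat ih =>
    -- split `f = g + h`, `g` the part with `m a ≠ 0`, `h` the part with `m a = 0`
    let g : MvPowerSeries σ A := fun m => if m a = 0 then 0 else coeff m f
    let h : MvPowerSeries σ A := fun m => if m a = 0 then coeff m f else 0
    have hfgh : f = g + h := by
      ext m
      show coeff m f = coeff m (g + h)
      rw [map_add]
      show coeff m f = g m + h m
      by_cases hm : m a = 0 <;> simp [g, h, hm]
    have hg : (X a : MvPowerSeries σ A) ∣ g := by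
      rw [X_dvd_iff]
      intro m hm
      show g m = 0
      simp [g, hm]
    have hh : h ∈ Ideal.span ((fun i => (X i : MvPowerSeries σ A)) '' (t : Set σ)) := by
      apply ih
      intro m hm
      show h m = 0
      by_cases hma : m a = 0
      · simp only [h, hma, if_true]
        apply hf
        intro i hi
        rcases Finset.mem_insert.mp hi with rfl | hi
        · exact hma
        · exact hm i hi
      · simp [h, hma]
    rw [hfgh]
    refine Ideal.add_mem _ ?_ ?_
    · obtain ⟨q, hq⟩ := hg
      rw [hq]
      refine Ideal.mul_mem_right _ _ (Ideal.subset_span ?_)
      exact ⟨a, by simp, rfl⟩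
    · refine Ideal.span_mono ?_ hh
      apply Set.image_mono
      intro i hi
      exact Finset.mem_insert_of_mem hi

/-- A power series in finitely many variables differs from its constant coefficient by an
element of the ideal generated by the variables. -/
theorem sub_C_constantCoeff_mem_span_X [Finite σ] (f : MvPowerSeries σ A) :
    f - C (constantCoeff f) ∈ Ideal.span (Set.range fun i => (X i : MvPowerSeries σ A)) := by
  classical
  have := Fintype.ofFinite σ
  have := mem_span_X_of_coeff_eq_zero (Finset.univ : Finset σ) (f - C (constantCoeff f)) (by
    intro m hm
    have hm0 : m = 0 := by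
      ext i
      simpa using hm i (Finset.mem_univ i)
    subst hm0
    simp)
  simpa using this

end Fermat.Agent.S57x
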