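import Mathlib
import Fermat.Prelude.Def_Algebra_PatchingDatum
import Fermat.Agent.S57x.ConstCoeffKer

set_option autoImplicit false

namespace Fermat.Agent.S57x

open MvPowerSeries

/-- A module over an `𝒪`-algebra `Λ` which is finitely generated over `𝒪` and killed by a
generator `ϖ` of a maximal ideal of `𝒪` is Artinian over `Λ`. -/
theorem isArtinian_of_finite_of_smul_eq_zero {𝒪 Λ Q : Type} [CommRing 𝒪] [CommRing Λ]
    [Algebra 𝒪 Λ] [AddCommGroup Q] [Module Λ Q] [Module 𝒪 Q] [IsScalarTower 𝒪 Λ Q]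
    [Module.Finite 𝒪 Q] (ϖ : 𝒪) (hmax : (Ideal.span {ϖ}).IsMaximal)
    (hkill : ∀ q : Q, ϖ • q = 0) : IsArtinian Λ Q := by
  have htors : Module.IsTorsionBySet 𝒪 Q (Ideal.span {ϖ} : Ideal 𝒪) := by
    rw [← Ideal.submodule_span_eq, Module.isTorsionBySet_span_singleton_iff]
    exact hkill
  letI : Module (𝒪 ⧸ Ideal.span {ϖ}) Q := htors.module
  haveI : IsScalarTower 𝒪 (𝒪 ⧸ Ideal.span {ϖ}) Q := htors.isScalarTower
  letI : Field (𝒪 ⧸ Ideal.span {ϖ}) := Ideal.Quotient.field _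
  haveI : Module.Finite (𝒪 ⧸ Ideal.span {ϖ}) Q :=
    Module.Finite.of_restrictScalars_finite 𝒪 (𝒪 ⧸ Ideal.span {ϖ}) Q
  haveI : IsArtinian (𝒪 ⧸ Ideal.span {ϖ}) Q := inferInstance
  haveI : IsArtinian 𝒪 Q :=
    isArtinian_of_surjective_algebraMap (R := 𝒪 ⧸ Ideal.span {ϖ}) (S := 𝒪) (M := Q)
      Ideal.Quotient.mk_surjective
  exact isArtinian_of_tower 𝒪 inferInstance

end Fermat.Agent.S57x

namespace Fermat.Agent.S57x

open MvPowerSeries

variable {𝒪 : Type} [CommRing 𝒪] {r : ℕ} {R : Type} [CommRing R] [Algebra 𝒪 R]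
  {M : Type} [AddCommGroup M] [Module R M]

/-- The module `N` of a patching level is finitely generated over the power series ring. -/
theorem finite_N {J : Ideal (MvPowerSeries (Fin r) 𝒪)} (L : Algebra.PatchingLevel 𝒪 r R M J) :
    Module.Finite (MvPowerSeries (Fin r) 𝒪) L.N := by
  classical
  refine ⟨⟨Finset.univ.image L.b, ?_⟩⟩
  rw [eq_top_iff]
  intro x _
  obtain ⟨c, hc⟩ := L.b_span x
  rw [hc]
  refine Submodule.sum_mem _ (fun i _ => Submodule.smul_mem _ _ (Submodule.subset_span ?_))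
  simp

/-- `φ` maps the kernel of the constant coefficient into any ideal containing the `φ (X i)`. -/
theorem phi_sub_C_mem {J : Ideal (MvPowerSeries (Fin r) 𝒪)}
    (L : Algebra.PatchingLevel 𝒪 r R M J)
    (I : Ideal (MvPowerSeries (Fin r) 𝒪)) (hX : ∀ i, L.φ (X i) ∈ I)
    (c : MvPowerSeries (Fin r) 𝒪) : L.φ c - C (constantCoeff c) ∈ I := by
  have h1 : c - C (constantCoeff c) ∈
      Ideal.span (Set.range fun i => (X i : MvPowerSeries (Fin r) 𝒪)) :=
    sub_C_constantCoeff_mem_span_X c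
  have h2 : L.φ (c - C (constantCoeff c)) ∈
      Ideal.map L.φ (Ideal.span (Set.range fun i => (X i : MvPowerSeries (Fin r) 𝒪))) :=
    Ideal.mem_map_of_mem _ h1
  have h3 : Ideal.map L.φ (Ideal.span (Set.range fun i => (X i : MvPowerSeries (Fin r) 𝒪))) ≤ I := by
    rw [Ideal.map_span]
    apply Ideal.span_le.mpr
    rintro _ ⟨_, ⟨i, rfl⟩, rfl⟩
    exact hX i
  have h4 : L.φ (C (constantCoeff c)) = C (constantCoeff c) := by
    have : (C (constantCoeff c) : MvPowerSeries (Fin r) 𝒪) =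
        algebraMap 𝒪 (MvPowerSeries (Fin r) 𝒪) (constantCoeff c) := rfl
    rw [this, AlgHom.commutes]
  have := h3 h2
  rwa [map_sub, h4] at this

theorem isFiniteLength_quot [IsNoetherianRing 𝒪] (L : Algebra.PatchingLevel 𝒪 r R M ⊥) (ϖ : 𝒪)
    (hmax : (Ideal.span {ϖ}).IsMaximal) (I : Ideal (MvPowerSeries (Fin r) 𝒪))
    (hC : C ϖ ∈ I) (hX : ∀ i, L.φ (X i) ∈ I) :
    IsFiniteLength (MvPowerSeries (Fin r) 𝒪)
      (L.N ⧸ I • (⊤ : Submodule (MvPowerSeries (Fin r) 𝒪) L.N)) := by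
  classical
  haveI := finite_N L
  rw [isFiniteLength_iff_isNoetherian_isArtinian]
  refine ⟨inferInstance, ?_⟩
  letI : Module 𝒪 (L.N ⧸ I • (⊤ : Submodule (MvPowerSeries (Fin r) 𝒪) L.N)) :=
    Module.compHom _ (algebraMap 𝒪 (MvPowerSeries (Fin r) 𝒪))
  have hsmul : ∀ (a : 𝒪) (q : L.N ⧸ I • (⊤ : Submodule (MvPowerSeries (Fin r) 𝒪) L.N)),
      a • q = (C a : MvPowerSeries (Fin r) 𝒪) • q := fun a q => rfl
  haveI : IsScalarTower 𝒪 (MvPowerSeries (Fin r) 𝒪)
      (L.N ⧸ I • (⊤ : Submodule (MvPowerSeries (Fin r) 𝒪) L.N)) := ⟨fun a f q => by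
    rw [hsmul, Algebra.smul_def, mul_smul]
    rfl⟩
  haveI : Module.Finite 𝒪 (L.N ⧸ I • (⊤ : Submodule (MvPowerSeries (Fin r) 𝒪) L.N)) := by
    refine ⟨⟨Finset.univ.image (fun i => Submodule.Quotient.mk (L.b i)), ?_⟩⟩
    rw [eq_top_iff]
    intro q _
    obtain ⟨x, rfl⟩ := Submodule.Quotient.mk_surjective _ q
    obtain ⟨c, hc⟩ := L.b_span x
    rw [hc, ← Submodule.mkQ_apply, map_sum]
    refine Submodule.sum_mem _ (fun i _ => ?_)
    rw [Submodule.mkQ_apply]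
    have key : (Submodule.Quotient.mk (L.φ (c i) • L.b i) :
        L.N ⧸ I • (⊤ : Submodule (MvPowerSeries (Fin r) 𝒪) L.N)) =
        (constantCoeff (c i)) • Submodule.Quotient.mk (L.b i) := by
      rw [hsmul, ← Submodule.Quotient.mk_smul, Submodule.Quotient.eq, ← sub_smul]
      exact Submodule.smul_mem_smul (phi_sub_C_mem L I hX (c i)) Submodule.mem_top
    rw [key]
    refine Submodule.smul_mem _ _ (Submodule.subset_span ?_)
    simp
  refine isArtinian_of_finite_of_smul_eq_zero ϖ hmax ?_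
  intro q
  obtain ⟨x, rfl⟩ := Submodule.Quotient.mk_surjective _ q
  rw [hsmul, ← Submodule.Quotient.mk_smul, Submodule.Quotient.mk_eq_zero]
  exact Submodule.smul_mem_smul hC Submodule.mem_top

end Fermat.Agent.S57x
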