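import Mathlib

set_option autoImplicit false

open CategoryTheory RingTheory.Sequence IsLocalRing

namespace Fermat.Agent.S57x

variable {R : Type} [CommRing R] [IsLocalRing R]

/-- Over a Noetherian local ring whose residue field has projective dimension `≤ n`,
every finite length module has projective dimension `≤ n`. -/
theorem hasProjectiveDimensionLT_of_isFiniteLength (n : ℕ)
    (hk : HasProjectiveDimensionLT (ModuleCat.of R (R ⧸ maximalIdeal R)) (n + 1))
    (L : Type) [AddCommGroup L] [Module R L] (hL : IsFiniteLength R L) :
    HasProjectiveDimensionLT (ModuleCat.of R L) (n + 1) := by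
  induction hL with
  | of_subsingleton =>
    rename_i M _ _ _
    have hz : Limits.IsZero (ModuleCat.of R M) :=
      ModuleCat.isZero_of_subsingleton _
    have := hz.hasProjectiveDimensionLT_zero
    exact hasProjectiveDimensionLT_of_ge _ 0 (n + 1) (Nat.zero_le _)
  | of_simple_quotient hN ih =>
    rename_i M _ _ N hs
    obtain ⟨I, hI, ⟨e⟩⟩ := isSimpleModule_iff_quot_maximal.mp hs
    have hIm : I = maximalIdeal R := IsLocalRing.eq_maximalIdeal hI
    subst hIm
    have hq : HasProjectiveDimensionLT (ModuleCat.of R (M ⧸ N)) (n + 1) :=
      hasProjectiveDimensionLT_of_iso (e.symm.toModuleIso) (n + 1)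
    let S : ShortComplex (ModuleCat.{0} R) :=
      ShortComplex.mk (ModuleCat.ofHom N.subtype) (ModuleCat.ofHom N.mkQ) (by
        ext x; simp)
    have hS : S.ShortExact := by
      refine ModuleCat.shortComplex_shortExact S ?_ ?_ ?_
      · intro x
        simp only [S, ModuleCat.hom_ofHom, Submodule.mkQ_apply, Submodule.Quotient.mk_eq_zero,
          Set.mem_range, Submodule.subtype_apply, Subtype.exists, exists_prop, exists_eq_right]
      · exact N.injective_subtype
      · exact N.mkQ_surjective
    exact hS.hasProjectiveDimensionLT_X₂ (n + 1) ih hq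

/-- A finitely generated module over a Noetherian local ring `R` whose maximal ideal is
generated by an `R`-regular sequence `xs`, admitting a weakly regular sequence `ys` in the maximal
ideal at least as long as `xs` with finite length quotient, is free. -/
theorem free_of_isWeaklyRegular_of_isFiniteLength [IsNoetherianRing R]
    (xs : List R) (hxs : RingTheory.Sequence.IsRegular R xs)
    (hmax : Ideal.ofList xs = maximalIdeal R)
    (N : Type) [AddCommGroup N] [Module R N] [Module.Finite R N]
    (ys : List R) (hys : IsWeaklyRegular N ys) (hmem : ∀ y ∈ ys, y ∈ maximalIdeal R)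
    (hlen : xs.length ≤ ys.length)
    (hfl : IsFiniteLength R (N ⧸ Ideal.ofList ys • (⊤ : Submodule R N))) :
    Module.Free R N := by
  rcases subsingleton_or_nontrivial N with hN | hN
  · exact Module.Free.of_subsingleton R N
  -- projective dimension of the residue field
  have hk0 : projectiveDimension (ModuleCat.of R (Shrink.{0} (R ⧸ Ideal.ofList xs))) =
      (xs.length : WithBot ℕ∞) :=
    ModuleCat.projectiveDimension_quotient_eq_length.{0} xs hxs
  have hk1 : HasProjectiveDimensionLT (ModuleCat.of R (Shrink.{0} (R ⧸ Ideal.ofList xs)))
      (xs.length + 1) := by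
    have : projectiveDimension (ModuleCat.of R (Shrink.{0} (R ⧸ Ideal.ofList xs))) ≤
        (xs.length : ℕ) := le_of_eq hk0
    exact (projectiveDimension_le_iff _ _).mp this
  have hk : HasProjectiveDimensionLT (ModuleCat.of R (R ⧸ maximalIdeal R)) (xs.length + 1) := by
    rw [← hmax]
    exact hasProjectiveDimensionLT_of_iso
      ((Shrink.linearEquiv R (R ⧸ Ideal.ofList xs)).toModuleIso) (xs.length + 1)
  have hq := hasProjectiveDimensionLT_of_isFiniteLength xs.length hk _ hfl
  have hq' : projectiveDimension (ModuleCat.of R (N ⧸ Ideal.ofList ys • (⊤ : Submodule R N))) ≤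
      (xs.length : ℕ) := (projectiveDimension_le_iff _ _).mpr hq
  have heq := ModuleCat.projectiveDimension_quotient_eq_add_length_of_isWeaklyRegular
    (ModuleCat.of R N) ys hys hmem
  rw [heq] at hq'
  have h0 : projectiveDimension (ModuleCat.of R N) ≤ (0 : ℕ) := by
    have h1 : projectiveDimension (ModuleCat.of R N) + (ys.length : ℕ) ≤
        ((0 : ℕ) : WithBot ℕ∞) + (ys.length : ℕ) := by
      refine hq'.trans ?_
      simp only [Nat.cast_zero, zero_add]
      exact_mod_cast hlen
    exact ENat.WithBot.add_le_add_natCast_right_iff.mp h1
  have hproj : HasProjectiveDimensionLT (ModuleCat.of R N) 1 :=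
    (projectiveDimension_le_iff _ _).mp h0
  have : Projective (ModuleCat.of R N) := inferInstance
  have hp : Module.Projective R N := (IsProjective.iff_projective N).mpr this
  exact Module.free_of_flat_of_isLocalRing

end Fermat.Agent.S57x
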