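import Mathlib
import Fermat.Prelude.Def_Algebra_PatchingDatum

set_option autoImplicit false

namespace Fermat.Agent.S57x

open MvPowerSeries RingTheory.Sequence

section LowIdeal

variable (A : Type*) [CommRing A] (r : ℕ)

/-- Power series all of whose coefficients at monomials not involving the first `i`
variables vanish.  It is the ideal generated by `X_0, …, X_{i-1}`. -/
def lowIdeal (i : ℕ) : Ideal (MvPowerSeries (Fin r) A) where
  carrier := {f | ∀ m : Fin r →₀ ℕ, (∀ j : Fin r, (j : ℕ) < i → m j = 0) → coeff m f = 0}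
  add_mem' := by
    intro f g hf hg m hm
    rw [map_add, hf m hm, hg m hm, add_zero]
  zero_mem' := by
    intro m _
    simp
  smul_mem' := by
    intro g f hf m hm
    classical
    rw [smul_eq_mul, coeff_mul]
    refine Finset.sum_eq_zero ?_
    rintro ⟨p, q⟩ hpq
    rw [Finset.HasAntidiagonal.mem_antidiagonal] at hpq
    simp only at hpq
    have hq : ∀ j : Fin r, (j : ℕ) < i → q j = 0 := by
      intro j hj
      have h1 := hm j hj
      rw [← hpq, Finsupp.add_apply] at h1
      omega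
    simp only
    rw [hf q hq, mul_zero]

variable {A r}

lemma mem_lowIdeal {i : ℕ} {f : MvPowerSeries (Fin r) A} :
    f ∈ lowIdeal A r i ↔
      ∀ m : Fin r →₀ ℕ, (∀ j : Fin r, (j : ℕ) < i → m j = 0) → coeff m f = 0 :=
  Iff.rfl

lemma X_mem_lowIdeal {i : ℕ} (j : Fin r) (hj : (j : ℕ) < i) :
    (X j : MvPowerSeries (Fin r) A) ∈ lowIdeal A r i := by
  classical
  intro m hm
  rw [coeff_X, if_neg]
  intro h
  have := hm j hj
  rw [h] at this
  simp at this

lemma lowIdeal_mono {i k : ℕ} (h : i ≤ k) : lowIdeal A r i ≤ lowIdeal A r k := by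
  intro f hf m hm
  exact hf m (fun j hj => hm j (lt_of_lt_of_le hj h))

lemma lowIdeal_le_span (i : ℕ) :
    lowIdeal A r i ≤
      Ideal.span ((fun j : Fin r => (X j : MvPowerSeries (Fin r) A)) '' {j | (j : ℕ) < i}) := by
  classical
  induction i with
  | zero =>
    intro f hf
    have : f = 0 := by
      ext m
      rw [hf m (fun j hj => absurd hj (Nat.not_lt_zero _))]
      simp
    rw [this]
    exact Ideal.zero_mem _
  | succ i ih =>
    intro f hf
    by_cases hi : i < r
    · set s : Fin r := ⟨i, hi⟩ with hs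
      -- the part of `f` not involving `X_s`
      let f₂ : MvPowerSeries (Fin r) A := fun m => if m s = 0 then coeff m f else 0
      have hf₂ : ∀ m, coeff m f₂ = if m s = 0 then coeff m f else 0 := fun m => rfl
      have h1 : (X s : MvPowerSeries (Fin r) A) ∣ f - f₂ := by
        rw [X_dvd_iff]
        intro m hm
        rw [map_sub, hf₂, if_pos hm, sub_self]
      have h2 : f₂ ∈ lowIdeal A r i := by
        intro m hm
        rw [hf₂]
        split_ifs with h0
        · apply hf m
          intro j hj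
          rcases Nat.lt_succ_iff_lt_or_eq.mp hj with h | h
          · exact hm j h
          · have : j = s := Fin.ext h
            rw [this]; exact h0
        · rfl
      have h3 : f = (f - f₂) + f₂ := by ring
      rw [h3]
      refine Ideal.add_mem _ ?_ ?_
      · obtain ⟨g, hg⟩ := h1
        rw [hg]
        refine Ideal.mul_mem_right _ _ (Ideal.subset_span ⟨s, ?_, rfl⟩)
        simp [hs]
      · refine Ideal.span_mono ?_ (ih h2)
        apply Set.image_mono
        intro j hj
        exact Nat.lt_succ_of_lt hj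
    · have hle : lowIdeal A r (i + 1) ≤ lowIdeal A r i := by
        intro g hg m hm
        apply hg m
        intro j _
        exact hm j (lt_of_lt_of_le j.2 (not_lt.mp hi))
      refine Ideal.span_mono ?_ (ih (hle hf))
      apply Set.image_mono
      intro j hj
      exact Nat.lt_succ_of_lt hj

lemma lowIdeal_eq_span (i : ℕ) :
    lowIdeal A r i =
      Ideal.span ((fun j : Fin r => (X j : MvPowerSeries (Fin r) A)) '' {j | (j : ℕ) < i}) := by
  refine le_antisymm (lowIdeal_le_span i) ?_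
  rw [Ideal.span_le]
  rintro _ ⟨j, hj, rfl⟩
  exact X_mem_lowIdeal j hj

lemma ofList_take_ofFn_X (i : ℕ) :
    Ideal.ofList ((List.ofFn (fun j : Fin r => (X j : MvPowerSeries (Fin r) A))).take i) =
      lowIdeal A r i := by
  rw [lowIdeal_eq_span]
  refine congrArg Ideal.span ?_
  ext x
  constructor
  · intro hx
    obtain ⟨k, hk, rfl⟩ := List.mem_take_iff_getElem.mp hx
    simp only [List.length_ofFn, lt_min_iff] at hk
    exact ⟨⟨k, hk.2⟩, hk.1, by simp⟩
  · rintro ⟨j, hj, rfl⟩
    refine List.mem_take_iff_getElem.mpr ⟨j, ?_, by simp⟩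
    have : (j : ℕ) < i := hj
    simp [this]

lemma ofList_ofFn_X :
    Ideal.ofList (List.ofFn (fun j : Fin r => (X j : MvPowerSeries (Fin r) A))) =
      lowIdeal A r r := by
  have h := ofList_take_ofFn_X (A := A) (r := r) r
  rwa [List.take_of_length_le (by simp)] at h

lemma mem_lowIdeal_self {f : MvPowerSeries (Fin r) A} :
    f ∈ lowIdeal A r r ↔ constantCoeff f = 0 := by
  constructor
  · intro hf
    have := hf 0 (fun j _ => rfl)
    simpa using this
  · intro hf m hm
    have : m = 0 := by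
      ext j
      exact hm j j.2
    rw [this]
    simpa using hf

/-- `X_i` is regular modulo `(X_0, …, X_{i-1})`. -/
lemma X_smul_mem_lowIdeal {i : ℕ} (hi : i < r) {f : MvPowerSeries (Fin r) A}
    (h : (X ⟨i, hi⟩ : MvPowerSeries (Fin r) A) * f ∈ lowIdeal A r i) : f ∈ lowIdeal A r i := by
  classical
  intro m hm
  have h1 := h (Finsupp.single ⟨i, hi⟩ 1 + m) (by
    intro j hj
    rw [Finsupp.add_apply, hm j hj, Finsupp.single_apply, if_neg]
    intro h2
    rw [← h2] at hj
    simp at hj)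
  rw [X, coeff_add_monomial_mul, one_mul] at h1
  exact h1

/-- `C ϖ` is regular modulo `(X_0, …, X_{r-1})` if `ϖ` is regular. -/
lemma C_smul_mem_lowIdeal {ϖ : A} (hϖ : IsSMulRegular A ϖ) {f : MvPowerSeries (Fin r) A}
    (h : (C ϖ : MvPowerSeries (Fin r) A) * f ∈ lowIdeal A r r) : f ∈ lowIdeal A r r := by
  rw [mem_lowIdeal_self] at h ⊢
  rw [map_mul, constantCoeff_C] at h
  exact hϖ.right_eq_zero_of_smul h

/-- The list `X_0, …, X_{r-1}, C ϖ` of parameters of `A⟦X_0, …, X_{r-1}⟧`. -/
noncomputable def paramList (r : ℕ) (ϖ : A) : List (MvPowerSeries (Fin r) A) :=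
  List.ofFn (fun j : Fin r => (X j : MvPowerSeries (Fin r) A)) ++ [C ϖ]

lemma length_paramList (ϖ : A) : (paramList r ϖ).length = r + 1 := by
  simp [paramList]

theorem isWeaklyRegular_paramList {ϖ : A} (hϖ : IsSMulRegular A ϖ) :
    IsWeaklyRegular (MvPowerSeries (Fin r) A) (paramList r ϖ) := by
  rw [paramList, isWeaklyRegular_append_iff]
  constructor
  · rw [isWeaklyRegular_iff]
    intro i hi
    rw [isSMulRegular_quotient_iff_mem_of_smul_mem]
    intro f hf
    rw [ofList_take_ofFn_X, smul_eq_mul, Ideal.mul_top] at hf ⊢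
    have hi' : i < r := by simpa using hi
    have : (List.ofFn (fun j : Fin r => (X j : MvPowerSeries (Fin r) A)))[i] = X ⟨i, hi'⟩ := by
      simp
    rw [this, smul_eq_mul] at hf
    exact X_smul_mem_lowIdeal hi' hf
  · rw [isWeaklyRegular_singleton_iff, isSMulRegular_quotient_iff_mem_of_smul_mem]
    intro f hf
    rw [ofList_ofFn_X, smul_eq_mul, Ideal.mul_top] at hf ⊢
    rw [smul_eq_mul] at hf
    exact C_smul_mem_lowIdeal hϖ hf

theorem ofList_paramList (ϖ : A) :
    Ideal.ofList (paramList r ϖ) = lowIdeal A r r ⊔ Ideal.span {(C ϖ : MvPowerSeries (Fin r) A)} := by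
  rw [paramList, Ideal.ofList_append, ofList_ofFn_X, Ideal.ofList_singleton]

theorem mem_ofList_paramList {ϖ : A} {f : MvPowerSeries (Fin r) A} :
    f ∈ Ideal.ofList (paramList r ϖ) ↔ constantCoeff f ∈ Ideal.span {ϖ} := by
  rw [ofList_paramList, Ideal.mem_span_singleton]
  constructor
  · intro hf
    obtain ⟨g, hg, h, hh, rfl⟩ := Submodule.mem_sup.mp hf
    rw [mem_lowIdeal_self] at hg
    obtain ⟨c, rfl⟩ := Ideal.mem_span_singleton.mp hh
    rw [map_add, hg, zero_add, map_mul, constantCoeff_C]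
    exact Dvd.intro _ rfl
  · rintro ⟨a, ha⟩
    have h3 : f = (f - C ϖ * C a) + C ϖ * C a := by ring
    rw [h3]
    refine Ideal.add_mem _ (Ideal.mem_sup_left ?_) (Ideal.mem_sup_right ?_)
    · rw [mem_lowIdeal_self, map_sub, map_mul, constantCoeff_C, constantCoeff_C, ha, sub_self]
    · exact Ideal.mul_mem_right _ _ (Ideal.subset_span rfl)

theorem ofList_paramList_eq_maximalIdeal [IsLocalRing A] {ϖ : A}
    (hϖ : IsLocalRing.maximalIdeal A = Ideal.span {ϖ}) :
    Ideal.ofList (paramList r ϖ) = IsLocalRing.maximalIdeal (MvPowerSeries (Fin r) A) := by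
  ext f
  rw [mem_ofList_paramList, ← hϖ, IsLocalRing.mem_maximalIdeal, IsLocalRing.mem_maximalIdeal,
    mem_nonunits_iff, mem_nonunits_iff, isUnit_iff_constantCoeff]

theorem isRegular_paramList [IsLocalRing A] {ϖ : A} (hreg : IsSMulRegular A ϖ)
    (hϖ : IsLocalRing.maximalIdeal A = Ideal.span {ϖ}) :
    IsRegular (MvPowerSeries (Fin r) A) (paramList r ϖ) := by
  refine ⟨isWeaklyRegular_paramList hreg, ?_⟩
  rw [smul_eq_mul, Ideal.mul_top, ofList_paramList_eq_maximalIdeal hϖ]
  exact (IsLocalRing.maximalIdeal.isMaximal _).ne_top.symm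

end LowIdeal

section Transport

variable {𝒪 : Type} [CommRing 𝒪] {r : ℕ} {R : Type} [CommRing R] [Algebra 𝒪 R]
  {M : Type} [AddCommGroup M] [Module R M]

/-- With trivial relation ideal, `N` is free over the power series ring through `φ`. -/
noncomputable def coordEquiv (L : Algebra.PatchingLevel 𝒪 r R M ⊥) :
    (Fin L.d → MvPowerSeries (Fin r) 𝒪) ≃+ L.N :=
  AddEquiv.ofBijective
    ({ toFun := fun c => ∑ i, L.φ (c i) • L.b i
       map_zero' := by simp
       map_add' := by
         intro c c'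
         simp only [Pi.add_apply, map_add, add_smul, Finset.sum_add_distrib] } :
      (Fin L.d → MvPowerSeries (Fin r) 𝒪) →+ L.N)
    (by
      constructor
      · rw [injective_iff_map_eq_zero]
        intro c hc
        have := (L.b_rel c).mp hc
        funext i
        simpa using this i
      · intro x
        obtain ⟨c, hc⟩ := L.b_span x
        exact ⟨c, hc.symm⟩)

lemma coordEquiv_apply (L : Algebra.PatchingLevel 𝒪 r R M ⊥)
    (c : Fin L.d → MvPowerSeries (Fin r) 𝒪) :
    coordEquiv L c = ∑ i, L.φ (c i) • L.b i := rfl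

lemma coordEquiv_smul (L : Algebra.PatchingLevel 𝒪 r R M ⊥) (f : MvPowerSeries (Fin r) 𝒪)
    (c : Fin L.d → MvPowerSeries (Fin r) 𝒪) :
    coordEquiv L (f • c) = L.φ f • coordEquiv L c := by
  rw [coordEquiv_apply, coordEquiv_apply, Finset.smul_sum]
  refine Finset.sum_congr rfl fun i _ => ?_
  rw [Pi.smul_apply, smul_eq_mul, map_mul, mul_smul]

/-- Transport of weakly regular sequences from the power series ring to `N` through `φ`. -/
theorem isWeaklyRegular_map_φ (L : Algebra.PatchingLevel 𝒪 r R M ⊥)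
    {rs : List (MvPowerSeries (Fin r) 𝒪)}
    (h : IsWeaklyRegular (MvPowerSeries (Fin r) 𝒪) rs) :
    IsWeaklyRegular L.N (rs.map L.φ) := by
  have h1 : IsWeaklyRegular (Fin L.d → MvPowerSeries (Fin r) 𝒪) rs := by
    have h2 := h.isWeaklyRegular_rTensor (M₂ := Fin L.d → MvPowerSeries (Fin r) 𝒪)
    exact ((TensorProduct.lid (MvPowerSeries (Fin r) 𝒪)
      (Fin L.d → MvPowerSeries (Fin r) 𝒪)).isWeaklyRegular_congr rs).mp h2
  refine ((coordEquiv L).isWeaklyRegular_congr ?_).mp h1
  exact List.forall₂_map_right_iff.mpr <| List.forall₂_same.mpr fun f _ c => coordEquiv_smul L f c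

lemma regSeq_nontrivial_N [Nontrivial M] {J : Ideal (MvPowerSeries (Fin r) 𝒪)}
    (L : Algebra.PatchingLevel 𝒪 r R M J) : Nontrivial L.N := by
  obtain ⟨m, hm⟩ := exists_ne (0 : M)
  obtain ⟨x, hx⟩ := L.π_surjective m
  refine ⟨⟨x, 0, ?_⟩⟩
  rintro rfl
  rw [map_zero] at hx
  exact hm hx.symm

lemma regSeq_finite_N {J : Ideal (MvPowerSeries (Fin r) 𝒪)}
    (L : Algebra.PatchingLevel 𝒪 r R M J) : Module.Finite (MvPowerSeries (Fin r) 𝒪) L.N := by
  refine ⟨(Submodule.fg_def).mpr ⟨Set.range L.b, Set.finite_range _, ?_⟩⟩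
  rw [eq_top_iff]
  intro x _
  obtain ⟨c, rfl⟩ := L.b_span x
  exact Submodule.sum_mem _ fun i _ =>
    Submodule.smul_mem _ _ (Submodule.subset_span (Set.mem_range_self i))

lemma regSeq_φ_X_mem_maximalIdeal [IsLocalRing 𝒪] [Nontrivial M]
    {J : Ideal (MvPowerSeries (Fin r) 𝒪)}
    (L : Algebra.PatchingLevel 𝒪 r R M J) (i : Fin r) :
    L.φ (X i) ∈ IsLocalRing.maximalIdeal (MvPowerSeries (Fin r) 𝒪) := by
  rw [IsLocalRing.mem_maximalIdeal, mem_nonunits_iff]
  intro hu
  have h1 : IsUnit (L.ψ (L.φ (X i))) := hu.map L.ψ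
  rw [L.ψ_φ_X i] at h1
  have h2 : Subsingleton R := subsingleton_of_zero_eq_one (isUnit_zero_iff.mp h1)
  have h3 : Subsingleton M := Module.subsingleton R M
  exact not_subsingleton M h3

lemma regSeq_φ_C {J : Ideal (MvPowerSeries (Fin r) 𝒪)}
    (L : Algebra.PatchingLevel 𝒪 r R M J) (a : 𝒪) :
    L.φ (C a) = C a := by
  have : (C a : MvPowerSeries (Fin r) 𝒪) = algebraMap 𝒪 _ a := rfl
  rw [this, AlgHom.commutes]

lemma map_φ_paramList_mem_maximalIdeal [IsLocalRing 𝒪] [Nontrivial M]
    {J : Ideal (MvPowerSeries (Fin r) 𝒪)}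
    (L : Algebra.PatchingLevel 𝒪 r R M J) {ϖ : 𝒪} (hϖ : ϖ ∈ IsLocalRing.maximalIdeal 𝒪) :
    ∀ x ∈ (paramList r ϖ).map L.φ, x ∈ IsLocalRing.maximalIdeal (MvPowerSeries (Fin r) 𝒪) := by
  intro x hx
  rw [List.mem_map] at hx
  obtain ⟨y, hy, rfl⟩ := hx
  rw [paramList, List.mem_append, List.mem_ofFn', List.mem_singleton] at hy
  rcases hy with ⟨i, rfl⟩ | rfl
  · exact regSeq_φ_X_mem_maximalIdeal L i
  · rw [regSeq_φ_C, IsLocalRing.mem_maximalIdeal, mem_nonunits_iff, isUnit_iff_constantCoeff,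
      constantCoeff_C]
    exact (IsLocalRing.mem_maximalIdeal _).mp hϖ

end Transport

end Fermat.Agent.S57x
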