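import Mathlib
import Fermat.Prelude.Def_Algebra_PatchingDatum

/-!
# S57, part (C): final wiring

From freeness of `L.N` over the power series ring `Λ = MvPowerSeries (Fin r) 𝒪`
(with its given module structure) we derive the three conclusions of S57.
-/

set_option autoImplicit false

namespace Fermat.Agent.S57x

open MvPowerSeries

section wiring

variable {𝒪 : Type} [CommRing 𝒪] {r : ℕ} {R : Type} [CommRing R] [Algebra 𝒪 R]
  {M : Type} [AddCommGroup M] [Module R M]

/-- The ideal generated by the images `φ (X i)`. -/
noncomputable def relIdeal (L : Algebra.PatchingLevel 𝒪 r R M ⊥) :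
    Ideal (MvPowerSeries (Fin r) 𝒪) :=
  Ideal.span (Set.range fun i : Fin r => L.φ (MvPowerSeries.X i))

lemma relIdeal_le_ker (L : Algebra.PatchingLevel 𝒪 r R M ⊥) :
    relIdeal L ≤ RingHom.ker L.ψ := by
  unfold relIdeal
  rw [Ideal.span_le]
  rintro _ ⟨i, rfl⟩
  exact (RingHom.mem_ker).2 (L.ψ_φ_X i)

/-- Membership in `I • ⊤` in terms of coordinates for a basis. -/
lemma mem_smul_top_iff_repr {A : Type*} [CommRing A] {P : Type*} [AddCommGroup P] [Module A P]
    {ι : Type*} (e : Module.Basis ι A P) (I : Ideal A) (x : P) :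
    x ∈ I • (⊤ : Submodule A P) ↔ ∀ i, e.repr x i ∈ I := by
  rw [← e.span_eq, Submodule.mem_ideal_smul_span_iff_exists_sum]
  constructor
  · rintro ⟨a, ha, rfl⟩ i
    have : e.repr (a.sum fun i c => c • e i) = a := by
      have h := e.repr_linearCombination a
      rwa [Finsupp.linearCombination_apply] at h
    rw [this]
    exact ha i
  · intro h
    refine ⟨e.repr x, h, ?_⟩
    have := e.linearCombination_repr x
    rwa [Finsupp.linearCombination_apply] at this

variable (L : Algebra.PatchingLevel 𝒪 r R M ⊥)

lemma pi_eq_zero_iff_repr {ι : Type*} (e : Module.Basis ι (MvPowerSeries (Fin r) 𝒪) L.N)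
    (x : L.N) : L.π x = 0 ↔ ∀ i, e.repr x i ∈ relIdeal L := by
  rw [L.ker_π x]
  exact mem_smul_top_iff_repr e (relIdeal L) x

lemma pi_linearCombination {ι : Type*} (e : ι → L.N) (c : ι →₀ MvPowerSeries (Fin r) 𝒪) :
    L.π (Finsupp.linearCombination _ e c) =
      Finsupp.linearCombination R (fun i => L.π (e i)) (c.mapRange L.ψ (map_zero _)) := by
  rw [Finsupp.linearCombination_apply, Finsupp.linearCombination_apply,
    Finsupp.sum_mapRange_index (h := fun i a => a • L.π (e i)) (fun i => zero_smul _ _),
    Finsupp.sum, map_sum, Finsupp.sum]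
  refine Finset.sum_congr rfl fun i _ => ?_
  exact L.π_smul _ _

theorem wiring_of_free [Nontrivial M]
    (hfree : Module.Free (MvPowerSeries (Fin r) 𝒪) L.N) :
    Module.Free R M ∧ Module.annihilator R M = ⊥ ∧
      RingHom.ker L.ψ = Ideal.span (Set.range fun i : Fin r => L.φ (MvPowerSeries.X i)) := by
  classical
  obtain ⟨⟨ι, e⟩⟩ := hfree
  -- the index set is nonempty
  have hne : Nonempty ι := by
    by_contra hemp
    rw [not_nonempty_iff] at hemp
    obtain ⟨m, hm⟩ := exists_ne (0 : M)
    obtain ⟨x, rfl⟩ := L.π_surjective m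
    apply hm
    have : x = 0 := by
      apply e.ext_elem
      intro i
      exact (hemp.false i).elim
    rw [this, map_zero]
  obtain ⟨i₀⟩ := hne
  -- the kernel of ψ is the relation ideal
  have hker : RingHom.ker L.ψ ≤ relIdeal L := by
    intro f hf
    have h0 : L.π (f • e i₀) = 0 := by
      rw [L.π_smul, (RingHom.mem_ker).1 hf, zero_smul]
    have := (pi_eq_zero_iff_repr L e (f • e i₀)).1 h0 i₀
    simpa using this
  have hkereq : RingHom.ker L.ψ = relIdeal L := le_antisymm hker (relIdeal_le_ker L)
  -- the images of the basis vectors form a basis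
  have hli : LinearIndependent R (fun i => L.π (e i)) := by
    rw [linearIndependent_iff]
    intro a ha
    -- lift the coefficients
    have hlift : ∃ c : ι →₀ MvPowerSeries (Fin r) 𝒪, c.mapRange L.ψ (map_zero _) = a := by
      refine ⟨a.mapRange (fun s => if s = 0 then 0 else Function.surjInv L.ψ_surjective s)
        (by simp), ?_⟩
      ext i
      simp only [Finsupp.mapRange_apply]
      split_ifs with h
      · rw [map_zero, h]
      · exact Function.surjInv_eq L.ψ_surjective (a i)
    obtain ⟨c, rfl⟩ := hlift
    rw [← pi_linearCombination L e c] at ha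
    have hc := (pi_eq_zero_iff_repr L e _).1 ha
    ext i
    have hci : c i ∈ relIdeal L := by
      have := hc i
      rwa [e.repr_linearCombination] at this
    have : L.ψ (c i) = 0 := (RingHom.mem_ker).1 (relIdeal_le_ker L hci)
    simpa using this
  have hsp : ⊤ ≤ Submodule.span R (Set.range fun i => L.π (e i)) := by
    rintro m -
    obtain ⟨x, rfl⟩ := L.π_surjective m
    rw [← e.linearCombination_repr x, pi_linearCombination]
    rw [Finsupp.mem_span_range_iff_exists_finsupp]
    exact ⟨_, (Finsupp.linearCombination_apply _ _).symm⟩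
  let bM : Module.Basis ι R M := Module.Basis.mk hli hsp
  refine ⟨Module.Free.of_basis bM, ?_, hkereq⟩
  -- faithfulness
  rw [eq_bot_iff]
  intro a ha
  rw [Module.mem_annihilator] at ha
  have h1 := ha (bM i₀)
  have h2 : bM.repr (a • bM i₀) i₀ = a := by
    rw [map_smul, Module.Basis.repr_self]
    simp
  rw [h1] at h2
  simpa using h2.symm

end wiring

end Fermat.Agent.S57x
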